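import Fermat.Agent.LT.T6.H288.HypSpec

/-!
# Row LT, tower T6, sub-leaf T6.12i `CartanInvC` (helper687)

OFF-MAIN.  `cartan (u * g * u') = cartan g` for `u, u' ∈ U(0) = GL₂(𝒪)`:
the largest valuation of an entry and the valuation of the determinant are invariant under
multiplication by integral invertible matrices with integral inverse.

Imports `LT/T6/H288/HypSpec.lean` (helper288@945c32373, sha256 `46fc5f22…`) and through it
`LT/T6/Spec.lean` (helper22, sha256 `89f8f8b8…`), byte-identical copies.  Mathlib only otherwise.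

Main result: `cartanInvC_h687 : Fermat.Agent.LT.T6.H288.CartanInvC`.
-/

set_option autoImplicit false

open scoped Matrix

noncomputable section

namespace Fermat.Agent.LT.T6.H687

open Fermat.Agent.LT.T6

variable {k : Type} [Field k] [Valued k Γ₀]

/-- The entries of the identity matrix are integral. -/
theorem v_one_apply_le_one_h687 (i j : Fin 2) :
    Valued.v ((1 : Matrix (Fin 2) (Fin 2) k) i j) ≤ (1 : Γ₀) := by
  by_cases hij : i = j
  · subst hij
    simp
  · simp [Matrix.one_apply_ne hij]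

/-- The entries of an element of `U(0)` are integral. -/
theorem entry_le_one_of_inU_h687 {u : GL (Fin 2) k} (hu : InU 0 u) (i j : Fin 2) :
    Valued.v ((u : Matrix (Fin 2) (Fin 2) k) i j) ≤ (1 : Γ₀) := by
  have h := (hu i j).1
  simp only [Nat.cast_zero, neg_zero, WithZero.exp_zero] at h
  have h2 := Valuation.map_add (Valued.v : Valuation k Γ₀)
    ((u : Matrix (Fin 2) (Fin 2) k) i j - (1 : Matrix (Fin 2) (Fin 2) k) i j)
    ((1 : Matrix (Fin 2) (Fin 2) k) i j)
  rw [sub_add_cancel] at h2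
  exact h2.trans (max_le h (v_one_apply_le_one_h687 i j))

/-- The entries of the inverse of an element of `U(0)` are integral. -/
theorem entry_inv_le_one_of_inU_h687 {u : GL (Fin 2) k} (hu : InU 0 u) (i j : Fin 2) :
    Valued.v (((u⁻¹ : GL (Fin 2) k) : Matrix (Fin 2) (Fin 2) k) i j) ≤ (1 : Γ₀) := by
  have h := (hu i j).2
  simp only [Nat.cast_zero, neg_zero, WithZero.exp_zero] at h
  have h2 := Valuation.map_add (Valued.v : Valuation k Γ₀)
    (((u⁻¹ : GL (Fin 2) k) : Matrix (Fin 2) (Fin 2) k) i j - (1 : Matrix (Fin 2) (Fin 2) k) i j)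
    ((1 : Matrix (Fin 2) (Fin 2) k) i j)
  rw [sub_add_cancel] at h2
  exact h2.trans (max_le h (v_one_apply_le_one_h687 i j))

/-- Every entry is bounded by `entryMax`. -/
theorem v_entry_le_entryMax_h687 (g : GL (Fin 2) k) (a b : Fin 2) :
    Valued.v ((g : Matrix (Fin 2) (Fin 2) k) a b) ≤ entryMax g :=
  Finset.le_sup' (fun p : Fin 2 × Fin 2 => Valued.v ((g : Matrix (Fin 2) (Fin 2) k) p.1 p.2))
    (Finset.mem_univ (a, b))

/-- A product `x * y` with `v x ≤ 1` has valuation at most `v y`. -/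
theorem v_mul_le_right_h687 {x y : k} (hx : Valued.v x ≤ (1 : Γ₀)) :
    Valued.v (x * y) ≤ Valued.v y := by
  rw [Valuation.map_mul]
  calc Valued.v x * Valued.v y ≤ 1 * Valued.v y := mul_le_mul' hx le_rfl
    _ = Valued.v y := one_mul _

/-- A product `x * y` with `v y ≤ 1` has valuation at most `v x`. -/
theorem v_mul_le_left_h687 {x y : k} (hy : Valued.v y ≤ (1 : Γ₀)) :
    Valued.v (x * y) ≤ Valued.v x := by
  rw [mul_comm]
  exact v_mul_le_right_h687 hy

/-- Left multiplication by an integral matrix does not increase `entryMax`. -/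
theorem entryMax_mul_left_le_h687 {u : GL (Fin 2) k} (g : GL (Fin 2) k)
    (hu : ∀ i j, Valued.v ((u : Matrix (Fin 2) (Fin 2) k) i j) ≤ (1 : Γ₀)) :
    entryMax (u * g) ≤ entryMax g := by
  unfold entryMax
  apply Finset.sup'_le
  rintro ⟨i, j⟩ -
  simp only [Matrix.GeneralLinearGroup.coe_mul, Matrix.mul_apply, Fin.sum_univ_two]
  refine (Valuation.map_add _ _ _).trans (max_le ?_ ?_)
  · exact (v_mul_le_right_h687 (hu i 0)).trans (v_entry_le_entryMax_h687 g 0 j)
  · exact (v_mul_le_right_h687 (hu i 1)).trans (v_entry_le_entryMax_h687 g 1 j)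

/-- Right multiplication by an integral matrix does not increase `entryMax`. -/
theorem entryMax_mul_right_le_h687 {u : GL (Fin 2) k} (g : GL (Fin 2) k)
    (hu : ∀ i j, Valued.v ((u : Matrix (Fin 2) (Fin 2) k) i j) ≤ (1 : Γ₀)) :
    entryMax (g * u) ≤ entryMax g := by
  unfold entryMax
  apply Finset.sup'_le
  rintro ⟨i, j⟩ -
  simp only [Matrix.GeneralLinearGroup.coe_mul, Matrix.mul_apply, Fin.sum_univ_two]
  refine (Valuation.map_add _ _ _).trans (max_le ?_ ?_)
  · exact (v_mul_le_left_h687 (hu 0 j)).trans (v_entry_le_entryMax_h687 g i 0)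
  · exact (v_mul_le_left_h687 (hu 1 j)).trans (v_entry_le_entryMax_h687 g i 1)

/-- `entryMax` is invariant under left multiplication by `U(0)`. -/
theorem entryMax_mul_left_h687 {u : GL (Fin 2) k} (g : GL (Fin 2) k) (hu : InU 0 u) :
    entryMax (u * g) = entryMax g := by
  apply le_antisymm (entryMax_mul_left_le_h687 g (entry_le_one_of_inU_h687 hu))
  have h := entryMax_mul_left_le_h687 (u := u⁻¹) (u * g) (entry_inv_le_one_of_inU_h687 hu)
  rwa [inv_mul_cancel_left] at h

/-- `entryMax` is invariant under right multiplication by `U(0)`. -/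
theorem entryMax_mul_right_h687 {u : GL (Fin 2) k} (g : GL (Fin 2) k) (hu : InU 0 u) :
    entryMax (g * u) = entryMax g := by
  apply le_antisymm (entryMax_mul_right_le_h687 g (entry_le_one_of_inU_h687 hu))
  have h := entryMax_mul_right_le_h687 (u := u⁻¹) (g * u) (entry_inv_le_one_of_inU_h687 hu)
  rwa [mul_inv_cancel_right] at h

/-- The determinant of an integral `2 × 2` matrix is integral. -/
theorem v_det_le_one_h687 (M : Matrix (Fin 2) (Fin 2) k)
    (hM : ∀ i j, Valued.v (M i j) ≤ (1 : Γ₀)) : Valued.v M.det ≤ (1 : Γ₀) := by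
  rw [Matrix.det_fin_two]
  refine (Valuation.map_sub _ _ _).trans (max_le ?_ ?_)
  · exact (v_mul_le_right_h687 (hM 0 0)).trans (hM 1 1)
  · exact (v_mul_le_right_h687 (hM 0 1)).trans (hM 1 0)

/-- The determinant of an element of `U(0)` is a unit of the valuation ring. -/
theorem v_det_eq_one_of_inU_h687 {u : GL (Fin 2) k} (hu : InU 0 u) :
    Valued.v (u : Matrix (Fin 2) (Fin 2) k).det = (1 : Γ₀) := by
  have h1 := v_det_le_one_h687 (u : Matrix (Fin 2) (Fin 2) k) (entry_le_one_of_inU_h687 hu)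
  have h2 := v_det_le_one_h687 ((u⁻¹ : GL (Fin 2) k) : Matrix (Fin 2) (Fin 2) k)
    (entry_inv_le_one_of_inU_h687 hu)
  have hmul : (u : Matrix (Fin 2) (Fin 2) k).det *
      ((u⁻¹ : GL (Fin 2) k) : Matrix (Fin 2) (Fin 2) k).det = 1 := by
    rw [← Matrix.det_mul, ← Matrix.GeneralLinearGroup.coe_mul, mul_inv_cancel]
    simp
  have hv : Valued.v (u : Matrix (Fin 2) (Fin 2) k).det *
      Valued.v ((u⁻¹ : GL (Fin 2) k) : Matrix (Fin 2) (Fin 2) k).det = (1 : Γ₀) := by
    rw [← Valuation.map_mul, hmul, Valuation.map_one]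
  apply le_antisymm h1
  calc (1 : Γ₀) = Valued.v (u : Matrix (Fin 2) (Fin 2) k).det *
        Valued.v ((u⁻¹ : GL (Fin 2) k) : Matrix (Fin 2) (Fin 2) k).det := hv.symm
    _ ≤ Valued.v (u : Matrix (Fin 2) (Fin 2) k).det * 1 := mul_le_mul' le_rfl h2
    _ = Valued.v (u : Matrix (Fin 2) (Fin 2) k).det := mul_one _

/-- The valuation of the determinant is invariant under `U(0)` on both sides. -/
theorem v_det_mul_mul_h687 {u u' : GL (Fin 2) k} (g : GL (Fin 2) k) (hu : InU 0 u)
    (hu' : InU 0 u') :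
    Valued.v ((u * g * u' : GL (Fin 2) k) : Matrix (Fin 2) (Fin 2) k).det
      = Valued.v (g : Matrix (Fin 2) (Fin 2) k).det := by
  simp only [Matrix.GeneralLinearGroup.coe_mul, Matrix.det_mul, Valuation.map_mul,
    v_det_eq_one_of_inU_h687 hu, v_det_eq_one_of_inU_h687 hu', one_mul, mul_one]

/-- **T6.12i** `cartan (u * g * u') = cartan g` for `u, u' ∈ GL₂(𝒪)`. -/
theorem cartan_mul_mul_h687 {u u' : GL (Fin 2) k} (g : GL (Fin 2) k) (hu : InU 0 u)
    (hu' : InU 0 u') : cartan (u * g * u') = cartan g := by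
  unfold cartan
  rw [v_det_mul_mul_h687 g hu hu', entryMax_mul_right_h687 (u * g) hu',
    entryMax_mul_left_h687 g hu]

/-- **Sub-leaf T6.12i of helper288's cut of `FLHypC`.** -/
theorem cartanInvC_h687 : Fermat.Agent.LT.T6.H288.CartanInvC := by
  intro k _ _ u u' g hu hu'
  exact cartan_mul_mul_h687 g hu hu'

end Fermat.Agent.LT.T6.H687

end
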